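import Mathlib
import Fermat.Prelude.Def_EllipticCurve_FrobeniusTrace
open scoped Pointwise
open Polynomial IsLocalRing

/-!
# Places of `ℚ̄` and Frobenius elements

* `exists_liesOverPrime` : there is a place above each prime;
* `exists_isFrobeniusAt` : each place above `ℓ` has a Frobenius element (any Galois `L/ℚ`);
* `exists_smul_eq` : places above `ℓ` are conjugate;
* `isFrobeniusAt_iff`, `mem_inertiaSubgroupIn_iff` : elementwise characterisations;
* `isFrobeniusAt_smul_iff`, `mem_inertiaSubgroupIn_smul_iff` : behaviour under conjugation;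
* instances `IsAlgClosure ℚ (AlgebraicClosure ℚ)`, `IsGalois ℚ (AlgebraicClosure ℚ)` for the
  `ℚ`-algebra structure found by instance search.
-/

namespace Fermat.Agent.Frob

instance isAlgebraicQbar : Algebra.IsAlgebraic ℚ (AlgebraicClosure ℚ) :=
  AlgebraicClosure.isAlgebraic ℚ

instance isAlgClosureQbar : IsAlgClosure ℚ (AlgebraicClosure ℚ) := ⟨inferInstance, inferInstance⟩

instance isGaloisQbar : IsGalois ℚ (AlgebraicClosure ℚ) := inferInstance

variable {L : Type*} [Field L]

/-- Integral elements belong to every valuation subring. -/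
lemma mem_of_isIntegral (A : ValuationSubring L) {x : L} (hx : IsIntegral ℤ x) : x ∈ A := by
  have h1 : IsIntegral A x := hx.tower_top
  obtain ⟨y, rfl⟩ := (IsIntegrallyClosed.isIntegral_iff (K := L)).1 h1
  exact y.2

/-- key step: a polynomial with integral coefficients, one of which is a unit at `A`, killing
`x ∈ A`, yields a presentation `s * x = b` with `s` a unit at `A`. -/
lemma exists_mul_eq_of_aeval (A : ValuationSubring L) {x : L} (hx : x ∈ A) :
    ∀ (n : ℕ) (p : (integralClosure ℤ L)[X]), p.natDegree ≤ n → aeval x p = 0 →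
      (∃ i, ((p.coeff i : integralClosure ℤ L) : L) ∉ A.nonunits) →
      ∃ s b : L, IsIntegral ℤ s ∧ IsIntegral ℤ b ∧ s ∉ A.nonunits ∧ s * x = b := by
  intro n
  induction n with
  | zero =>
    intro p hp h0 ⟨i, hi⟩
    exfalso
    rw [Polynomial.eq_C_of_natDegree_le_zero hp, aeval_C] at h0
    have h1 : p.coeff 0 = 0 := by
      apply FaithfulSMul.algebraMap_injective (integralClosure ℤ L) L
      rw [h0, map_zero]
    apply hi
    rw [Polynomial.eq_C_of_natDegree_le_zero hp, h1, C_0, coeff_zero]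
    rw [ValuationSubring.mem_nonunits_iff]
    simp
  | succ n ih =>
    intro p hp h0 hi
    by_cases hc : ((p.coeff (n+1) : integralClosure ℤ L) : L) ∉ A.nonunits
    · -- the leading coefficient is a unit at `A`
      have hne : p.coeff (n+1) ≠ 0 := by
        intro h
        apply hc
        rw [h, ValuationSubring.mem_nonunits_iff]
        simp
      have hdeg : p.natDegree = n + 1 := le_antisymm hp (le_natDegree_of_ne_zero hne)
      have hlc : p.leadingCoeff = p.coeff (n+1) := by rw [leadingCoeff, hdeg]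
      have h1 := isIntegral_leadingCoeff_smul p x h0
      rw [hlc] at h1
      have h2 : IsIntegral ℤ (p.coeff (n+1) • x) := isIntegral_trans _ h1
      exact ⟨(p.coeff (n+1) : L), _, (p.coeff (n+1)).2, h2, hc, rfl⟩
    · -- the leading coefficient is a nonunit : decrease the degree
      push Not at hc
      have h1 : IsIntegral (integralClosure ℤ L) (p.coeff (n+1) • x) := by
        by_cases hne : p.coeff (n+1) = 0
        · rw [hne, zero_smul]; exact isIntegral_zero
        · have hdeg : p.natDegree = n + 1 := le_antisymm hp (le_natDegree_of_ne_zero hne)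
          have hlc : p.leadingCoeff = p.coeff (n+1) := by rw [leadingCoeff, hdeg]
          have h1 := isIntegral_leadingCoeff_smul p x h0
          rwa [hlc] at h1
      have h2 : IsIntegral ℤ (p.coeff (n+1) • x) := isIntegral_trans _ h1
      let b : integralClosure ℤ L := ⟨p.coeff (n+1) • x, h2⟩
      have hb : (b : L) = (p.coeff (n+1) : L) * x := rfl
      have hbn : (b : L) ∈ A.nonunits := by
        rw [ValuationSubring.mem_nonunits_iff] at hc ⊢
        rw [hb, map_mul]
        exact mul_lt_one_of_lt_of_le hc ((A.valuation_le_one_iff x).2 hx)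
      let p' : (integralClosure ℤ L)[X] := p - C (p.coeff (n+1)) * X^(n+1) + C b * X^n
      have hcoeff : ∀ i, i ≠ n + 1 → i ≠ n → p'.coeff i = p.coeff i := by
        intro i h1 h2
        simp [p', coeff_X_pow, h1, h2]
      have hcn1 : p'.coeff (n+1) = 0 := by
        simp [p', coeff_X_pow]
      have hcn : p'.coeff n = p.coeff n + b := by
        simp [p', coeff_X_pow]
      have hdeg' : p'.natDegree ≤ n := by
        rw [natDegree_le_iff_coeff_eq_zero]
        intro m hm
        by_cases hmn : m = n + 1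
        · rw [hmn, hcn1]
        · rw [hcoeff m hmn (by omega)]
          exact coeff_eq_zero_of_natDegree_lt (by omega)
      have h0' : aeval x p' = 0 := by
        simp only [p', map_add, map_sub, map_mul, aeval_C, map_pow, aeval_X, h0]
        change 0 - (p.coeff (n+1) : L) * x^(n+1) + (b : L) * x^n = 0
        rw [hb]; ring
      apply ih p' hdeg' h0'
      obtain ⟨i, hi⟩ := hi
      have hin : i ≠ n + 1 := by
        rintro rfl
        exact hi hc
      by_cases hin' : i = n
      · subst hin'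
        refine ⟨i, ?_⟩
        rw [hcn]
        intro hmem
        apply hi
        rw [ValuationSubring.mem_nonunits_iff] at hmem hbn ⊢
        have : (p.coeff i : L) = ((p.coeff i + b : integralClosure ℤ L) : L) - b := by
          push_cast; ring
        rw [this]
        exact lt_of_le_of_lt (Valuation.map_sub _ _ _) (max_lt hmem hbn)
      · exact ⟨i, by rwa [hcoeff i hin hin']⟩

lemma natCast_notMem_nonunits (A : ValuationSubring L) {ℓ : ℕ} (hℓ : ℓ.Prime)
    (hA : A.LiesOverPrime ℓ) {a : ℤ} (ha : ¬ (ℓ : ℤ) ∣ a) : (a : L) ∉ A.nonunits := by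
  intro hmem
  have hcop : IsCoprime (ℓ : ℤ) a :=
    (Prime.coprime_iff_not_dvd (Nat.prime_iff_prime_int.1 hℓ)).2 ha
  obtain ⟨u, v, huv⟩ := hcop
  have h1 : A.valuation ((1 : ℤ) : L) < 1 := by
    rw [← huv]
    push_cast
    rw [ValuationSubring.mem_nonunits_iff] at hmem
    have hA' : A.valuation (ℓ : L) < 1 := (ValuationSubring.mem_nonunits_iff _).1 hA
    refine lt_of_le_of_lt (Valuation.map_add _ _ _) (max_lt ?_ ?_)
    · rw [map_mul, mul_comm]
      exact mul_lt_one_of_lt_of_le hA' ((A.valuation_le_one_iff _).2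
        (mem_of_isIntegral A (isIntegral_algebraMap (R := ℤ) (x := u))))
    · rw [map_mul, mul_comm]
      exact mul_lt_one_of_lt_of_le hmem ((A.valuation_le_one_iff _).2
        (mem_of_isIntegral A (isIntegral_algebraMap (R := ℤ) (x := v))))
  simp at h1

/-- Elements of a valuation subring of an algebraic extension of `ℚ` are quotients of integral
elements, with denominator a unit at `A`. -/
lemma exists_mul_eq [CharZero L] [Algebra ℚ L] [Algebra.IsAlgebraic ℚ L] (A : ValuationSubring L) {ℓ : ℕ} (hℓ : ℓ.Prime)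
    (hA : A.LiesOverPrime ℓ) {x : L} (hx : x ∈ A) :
    ∃ s b : L, IsIntegral ℤ s ∧ IsIntegral ℤ b ∧ s ∉ A.nonunits ∧ s * x = b := by
  have halg : IsAlgebraic ℤ x :=
    (IsFractionRing.isAlgebraic_iff ℤ ℚ L).2 (Algebra.IsAlgebraic.isAlgebraic x)
  obtain ⟨p, hp0, hpx⟩ := halg
  have hprim := p.isPrimitive_primPart
  have hpx' : aeval x p.primPart = 0 := by
    have h := p.eq_C_content_mul_primPart
    rw [h, map_mul, aeval_C] at hpx
    rcases mul_eq_zero.1 hpx with h1 | h1
    · exfalso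
      have : p.content = 0 := by simpa using h1
      exact hp0 (content_eq_zero_iff.1 this)
    · exact h1
  have hex : ∃ i, ¬ (ℓ : ℤ) ∣ p.primPart.coeff i := by
    by_contra hcon
    push Not at hcon
    have := hprim (ℓ : ℤ) ((C_dvd_iff_dvd_coeff _ _).2 hcon)
    rw [Int.isUnit_iff] at this
    have := hℓ.one_lt
    omega
  obtain ⟨i, hi⟩ := hex
  refine exists_mul_eq_of_aeval A hx _ (p.primPart.map (algebraMap ℤ (integralClosure ℤ L))) le_rfl
    ?_ ⟨i, ?_⟩
  · rw [aeval_map_algebraMap, hpx']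
  · rw [coeff_map]
    have : (((algebraMap ℤ (integralClosure ℤ L)) (p.primPart.coeff i) : integralClosure ℤ L) : L)
      = ((p.primPart.coeff i : ℤ) : L) := by simp
    rw [this]
    exact natCast_notMem_nonunits A hℓ hA hi


/-- Existence of a place above a prime number. -/
lemma exists_liesOverPrime (L : Type*) [Field L] [CharZero L] {ℓ : ℕ} (hℓ : ℓ.Prime) :
    ∃ A : ValuationSubring L, A.LiesOverPrime ℓ := by
  let B : Subring L := (Int.castRingHom L).range
  let e : ℤ →+* B := (Int.castRingHom L).rangeRestrict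
  have hI : (Ideal.span {e ℓ} : Ideal B) ≠ ⊤ := by
    rw [Ne, Ideal.span_singleton_eq_top]
    intro hu
    obtain ⟨⟨y, ⟨n, rfl⟩⟩, hy⟩ := hu.exists_right_inv
    have h1 : ((ℓ : ℤ) * n : ℤ) = 1 := by
      have := congrArg (Subtype.val) hy
      simp only [e] at this
      have h2 : ((ℓ : ℤ) : L) * (n : L) = 1 := by simpa using this
      exact_mod_cast h2
    have := Int.isUnit_iff.1 (IsUnit.of_mul_eq_one _ h1)
    have := hℓ.one_lt
    omega
  obtain ⟨A, -, hA⟩ := Ideal.image_subset_nonunits_valuationSubring _ hI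
  refine ⟨A, hA ⟨e ℓ, Ideal.subset_span rfl, ?_⟩⟩
  simp [e]

lemma mem_nonunits_iff_inv (A : ValuationSubring L) {x : L} :
    x ∈ A.nonunits ↔ x = 0 ∨ x⁻¹ ∉ A := by
  rw [ValuationSubring.mem_nonunits_iff]
  rcases eq_or_ne x 0 with rfl | hx
  · simp
  · simp only [hx, false_or]
    rw [← A.valuation_le_one_iff, map_inv₀, not_le, one_lt_inv₀]
    rw [zero_lt_iff]
    simpa using hx

section Frobenius

variable {K : Type*} [Field K] [Algebra K L]

lemma apply_mem_iff {A : ValuationSubring L} {σ : L ≃ₐ[K] L}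
    (hσ : σ ∈ A.decompositionSubgroup K) {x : L} : σ x ∈ A ↔ x ∈ A := by
  have h : σ • A = A := hσ
  conv_lhs => rw [← h]
  rw [ValuationSubring.mem_pointwise_smul_iff_inv_smul_mem]
  have : σ⁻¹ • (σ x) = x := inv_smul_smul σ x
  rw [this]

lemma apply_mem_nonunits_iff {A : ValuationSubring L} {σ : L ≃ₐ[K] L}
    (hσ : σ ∈ A.decompositionSubgroup K) {x : L} : σ x ∈ A.nonunits ↔ x ∈ A.nonunits := by
  rw [mem_nonunits_iff_inv, mem_nonunits_iff_inv, ← map_inv₀, apply_mem_iff hσ]
  simp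

lemma isFrobeniusAt_iff (A : ValuationSubring L) (σ : L ≃ₐ[K] L) (q : ℕ) :
    A.IsFrobeniusAt σ q ↔
      σ ∈ A.decompositionSubgroup K ∧ ∀ x ∈ A, σ x - x ^ q ∈ A.nonunits := by
  constructor
  · rintro ⟨hσ, h⟩
    refine ⟨hσ, fun x hx => ?_⟩
    have h1 := h (residue A ⟨x, hx⟩)
    rw [← map_pow] at h1
    have h2 : residue A ((⟨σ, hσ⟩ : A.decompositionSubgroup K) • (⟨x, hx⟩ : A)) =
      residue A (⟨x, hx⟩ ^ q) := h1
    rw [← sub_eq_zero, ← map_sub, residue_eq_zero_iff] at h2
    exact ValuationSubring.mem_nonunits_iff_exists_mem_maximalIdeal.2 ⟨_, h2⟩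
  · rintro ⟨hσ, h⟩
    refine ⟨hσ, fun x => ?_⟩
    obtain ⟨⟨x, hx⟩, rfl⟩ := residue_surjective x
    obtain ⟨h3, h4⟩ := ValuationSubring.mem_nonunits_iff_exists_mem_maximalIdeal.1 (h x hx)
    rw [← map_pow]
    change residue A ((⟨σ, hσ⟩ : A.decompositionSubgroup K) • (⟨x, hx⟩ : A)) =
      residue A (⟨x, hx⟩ ^ q)
    rw [← sub_eq_zero, ← map_sub, residue_eq_zero_iff]
    exact h4

lemma mem_inertiaSubgroupIn_iff (A : ValuationSubring L) (σ : L ≃ₐ[K] L) :
    σ ∈ A.inertiaSubgroupIn K ↔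
      σ ∈ A.decompositionSubgroup K ∧ ∀ x ∈ A, σ x - x ∈ A.nonunits := by
  rw [ValuationSubring.inertiaSubgroupIn, Subgroup.mem_map]
  constructor
  · rintro ⟨⟨τ, hτ⟩, h, rfl⟩
    refine ⟨hτ, fun x hx => ?_⟩
    have h1 := RingEquiv.congr_fun (MonoidHom.mem_ker.1 h) (residue A ⟨x, hx⟩)
    have h2 : residue A ((⟨τ, hτ⟩ : A.decompositionSubgroup K) • (⟨x, hx⟩ : A)) =
      residue A ⟨x, hx⟩ := h1
    rw [← sub_eq_zero, ← map_sub, residue_eq_zero_iff] at h2
    exact ValuationSubring.mem_nonunits_iff_exists_mem_maximalIdeal.2 ⟨_, h2⟩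
  · rintro ⟨hσ, h⟩
    refine ⟨⟨σ, hσ⟩, ?_, rfl⟩
    refine MonoidHom.mem_ker.2 ?_
    ext x
    obtain ⟨⟨x, hx⟩, rfl⟩ := residue_surjective x
    obtain ⟨h3, h4⟩ := ValuationSubring.mem_nonunits_iff_exists_mem_maximalIdeal.1 (h x hx)
    change residue A ((⟨σ, hσ⟩ : A.decompositionSubgroup K) • (⟨x, hx⟩ : A)) =
      residue A ⟨x, hx⟩
    rw [← sub_eq_zero, ← map_sub, residue_eq_zero_iff]
    exact h4

end Frobenius

section Galois

variable (L) in
/-- The inclusion of the ring of integers into a valuation subring. -/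
def intIncl (A : ValuationSubring L) : integralClosure ℤ L →+* A :=
  (algebraMap (integralClosure ℤ L) L).codRestrict A.toSubring
    (fun x => mem_of_isIntegral A x.2)

@[simp] lemma coe_intIncl (A : ValuationSubring L) (x : integralClosure ℤ L) :
    ((intIncl L A x : A) : L) = x := rfl

/-- The prime of the ring of integers below a valuation subring. -/
def primeBelow (A : ValuationSubring L) : Ideal (integralClosure ℤ L) :=
  (maximalIdeal A).comap (intIncl L A)

instance (A : ValuationSubring L) : (primeBelow A).IsPrime := by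
  unfold primeBelow; infer_instance

lemma mem_primeBelow_iff (A : ValuationSubring L) (x : integralClosure ℤ L) :
    x ∈ primeBelow A ↔ (x : L) ∈ A.nonunits := by
  rw [primeBelow, Ideal.mem_comap, ValuationSubring.mem_nonunits_iff_exists_mem_maximalIdeal]
  constructor
  · intro h
    exact ⟨(intIncl L A x).2, h⟩
  · rintro ⟨_, h⟩
    exact h

variable [CharZero L] [Algebra ℚ L]

/-- An automorphism lies in the decomposition group iff it stabilises the prime below. -/
lemma mem_decompositionSubgroup_iff [Algebra.IsAlgebraic ℚ L] (A : ValuationSubring L) {ℓ : ℕ}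
    (hℓ : ℓ.Prime) (hA : A.LiesOverPrime ℓ) (σ : L ≃ₐ[ℚ] L) :
    σ ∈ A.decompositionSubgroup ℚ ↔ σ • primeBelow A = primeBelow A := by
  have key : ∀ (σ : L ≃ₐ[ℚ] L), σ • primeBelow A = primeBelow A → ∀ x ∈ A, σ x ∈ A := by
    intro σ hσ x hx
    obtain ⟨s, b, hs, hb, hsu, hsx⟩ := exists_mul_eq A hℓ hA hx
    have hsA : s ∈ A := mem_of_isIntegral A hs
    have h1 : (σ s) ∉ A.nonunits := by
      intro hmem
      have h2 : (σ • (⟨s, hs⟩ : integralClosure ℤ L)) ∈ primeBelow A := by
        rw [mem_primeBelow_iff]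
        exact hmem
      rw [← hσ, Ideal.smul_mem_pointwise_smul_iff, mem_primeBelow_iff] at h2
      exact hsu h2
    have h3 : σ s * σ x = σ b := by rw [← map_mul, hsx]
    have h4 : A.valuation (σ s) = 1 := by
      apply le_antisymm
      · exact (A.valuation_le_one_iff _).2 (mem_of_isIntegral A (hs.map (σ : L →ₐ[ℚ] L)))
      · exact not_lt.1 (fun h => h1 ((ValuationSubring.mem_nonunits_iff _).2 h))
    have h5 : A.valuation (σ x) = A.valuation (σ b) := by
      rw [← h3, map_mul, h4, one_mul]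
    rw [← A.valuation_le_one_iff, h5]
    exact (A.valuation_le_one_iff _).2 (mem_of_isIntegral A (hb.map (σ : L →ₐ[ℚ] L)))
  constructor
  · intro h
    have h0 : σ • A = A := h
    ext x
    rw [Ideal.mem_pointwise_smul_iff_inv_smul_mem]
    rw [mem_primeBelow_iff, mem_primeBelow_iff]
    exact apply_mem_nonunits_iff (inv_mem h)
  · intro h
    change σ • A = A
    ext x
    rw [ValuationSubring.mem_pointwise_smul_iff_inv_smul_mem]
    constructor
    · intro hx
      have := key σ h _ hx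
      simpa using this
    · intro hx
      refine key σ⁻¹ ?_ x hx
      rw [inv_smul_eq_iff, h]


/-- a discrete topology on the ring of integers -/
local instance : TopologicalSpace (integralClosure ℤ L) := ⊥

local instance : DiscreteTopology (integralClosure ℤ L) := ⟨rfl⟩

omit [CharZero L] in
lemma continuousSMul_integralClosure [Algebra.IsAlgebraic ℚ L] :
    ContinuousSMul (L ≃ₐ[ℚ] L) (integralClosure ℤ L) := by
  rw [continuousSMul_iff_stabilizer_isOpen]
  intro x
  have h := stabilizer_isOpen_of_isIntegral (K := ℚ) (L := L) (x : L)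
  convert h using 1
  ext σ
  simp only [SetLike.mem_coe, MulAction.mem_stabilizer_iff]
  rw [Subtype.ext_iff]
  rfl

omit [CharZero L] in
lemma isInvariant_integralClosure [IsGalois ℚ L] :
    Algebra.IsInvariant ℤ (integralClosure ℤ L) (L ≃ₐ[ℚ] L) := by
  constructor
  intro b hb
  obtain ⟨q, hq⟩ := (InfiniteGalois.mem_range_algebraMap_iff_fixed (k := ℚ) (b : L)).2
    (fun σ => congrArg Subtype.val (hb σ))
  have hint : IsIntegral ℤ q := by
    have := b.2
    rw [← hq] at this
    exact (isIntegral_algebraMap_iff (algebraMap ℚ L).injective).1 this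
  obtain ⟨n, hn⟩ := IsIntegrallyClosed.isIntegral_iff.1 hint
  refine ⟨n, ?_⟩
  apply Subtype.ext
  rw [← hq, ← hn]
  simp


omit [CharZero L] [Algebra ℚ L] in
lemma natCast_mem_primeBelow {A : ValuationSubring L} {ℓ : ℕ} (hA : A.LiesOverPrime ℓ) :
    (ℓ : integralClosure ℤ L) ∈ primeBelow A := by
  rw [mem_primeBelow_iff]
  exact hA

omit [CharZero L] [Algebra ℚ L] in
lemma charP_quotient {A : ValuationSubring L} {ℓ : ℕ} (hℓ : ℓ.Prime) (hA : A.LiesOverPrime ℓ) :
    CharP (integralClosure ℤ L ⧸ primeBelow A) ℓ := by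
  have : Fact ℓ.Prime := ⟨hℓ⟩
  have : Nontrivial (integralClosure ℤ L ⧸ primeBelow A) :=
    Ideal.Quotient.nontrivial_iff.2 (Ideal.IsPrime.ne_top inferInstance)
  refine (CharP.charP_iff_prime_eq_zero hℓ).2 ?_
  rw [← map_natCast (Ideal.Quotient.mk (primeBelow A)), Ideal.Quotient.eq_zero_iff_mem]
  exact natCast_mem_primeBelow hA

omit [CharZero L] in
lemma isMaximal_primeBelow [Algebra.IsAlgebraic ℚ L] {A : ValuationSubring L} {ℓ : ℕ}
    (hℓ : ℓ.Prime) (hA : A.LiesOverPrime ℓ) : (primeBelow A).IsMaximal := by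
  have : Fact ℓ.Prime := ⟨hℓ⟩
  apply Ideal.isMaximal_of_isIntegral_of_isMaximal_comap (R := ℤ)
  have h1 : (Ideal.comap (algebraMap ℤ (integralClosure ℤ L)) (primeBelow A)) =
      Ideal.span {(ℓ : ℤ)} := by
    symm
    apply Ideal.IsMaximal.eq_of_le
    · exact (Int.ideal_span_isMaximal_of_prime ℓ)
    · exact Ideal.IsPrime.ne_top inferInstance
    · rw [Ideal.span_singleton_le_iff_mem, Ideal.mem_comap]
      simpa using natCast_mem_primeBelow hA
  rw [h1]
  exact (Int.ideal_span_isMaximal_of_prime ℓ)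

omit [CharZero L] in
lemma frobenius_surjective [Algebra.IsAlgebraic ℚ L] {A : ValuationSubring L} {ℓ : ℕ}
    [hℓ : Fact ℓ.Prime] (hA : A.LiesOverPrime ℓ)
    (y : integralClosure ℤ L ⧸ primeBelow A) : ∃ x, x ^ ℓ = y := by
  have := isMaximal_primeBelow hℓ.out hA
  have := charP_quotient hℓ.out hA
  let : Field (integralClosure ℤ L ⧸ primeBelow A) := Ideal.Quotient.field _
  let : Algebra (ZMod ℓ) (integralClosure ℤ L ⧸ primeBelow A) := ZMod.algebra _ ℓ
  have h1 : Algebra.IsIntegral ℤ (integralClosure ℤ L ⧸ primeBelow A) := inferInstance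
  have : IsScalarTower ℤ (ZMod ℓ) (integralClosure ℤ L ⧸ primeBelow A) :=
    IsScalarTower.of_algebraMap_eq' (RingHom.ext_int _ _)
  have h2 : Algebra.IsIntegral (ZMod ℓ) (integralClosure ℤ L ⧸ primeBelow A) :=
    Algebra.IsIntegral.tower_top (R := ℤ)
  have h3 : Algebra.IsAlgebraic (ZMod ℓ) (integralClosure ℤ L ⧸ primeBelow A) :=
    Algebra.IsIntegral.isAlgebraic
  have := Algebra.IsAlgebraic.perfectField (K := ZMod ℓ)
    (L := integralClosure ℤ L ⧸ primeBelow A)
  have : PerfectRing (integralClosure ℤ L ⧸ primeBelow A) ℓ := PerfectField.toPerfectRing ℓ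
  exact surjective_frobenius (R := integralClosure ℤ L ⧸ primeBelow A) (p := ℓ) y

/-- Existence of Frobenius elements in (possibly infinite) Galois extensions of `ℚ`. -/
theorem exists_isFrobeniusAt [IsGalois ℚ L] (A : ValuationSubring L) {ℓ : ℕ} (hℓ : ℓ.Prime)
    (hA : A.LiesOverPrime ℓ) : ∃ σ : L ≃ₐ[ℚ] L, A.IsFrobeniusAt σ ℓ := by
  have : Fact ℓ.Prime := ⟨hℓ⟩
  have := isMaximal_primeBelow hℓ hA
  have := charP_quotient hℓ hA
  have := continuousSMul_integralClosure (L := L)
  have := isInvariant_integralClosure (L := L)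
  let F : (integralClosure ℤ L ⧸ primeBelow A) ≃+* (integralClosure ℤ L ⧸ primeBelow A) :=
    RingEquiv.ofBijective (frobenius (integralClosure ℤ L ⧸ primeBelow A) ℓ)
      ⟨frobenius_inj _ _, frobenius_surjective hA⟩
  let F' : (integralClosure ℤ L ⧸ primeBelow A) ≃ₐ[ℤ ⧸ (primeBelow A).under ℤ]
      (integralClosure ℤ L ⧸ primeBelow A) :=
    AlgEquiv.ofRingEquiv (f := F) (by
      intro r
      obtain ⟨n, rfl⟩ := Ideal.Quotient.mk_surjective r
      change F (algebraMap ℤ (integralClosure ℤ L ⧸ primeBelow A) n) =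
        algebraMap ℤ (integralClosure ℤ L ⧸ primeBelow A) n
      simp)
  obtain ⟨⟨σ, hσ⟩, h⟩ := Ideal.Quotient.stabilizerHom_surjective_of_profinite
    (G := L ≃ₐ[ℚ] L) ((primeBelow A).under ℤ) (primeBelow A) F'
  have hσ' : σ ∈ A.decompositionSubgroup ℚ := (mem_decompositionSubgroup_iff A hℓ hA σ).2 hσ
  have hint : ∀ x : integralClosure ℤ L, σ (x : L) - (x : L) ^ ℓ ∈ A.nonunits := by
    intro x
    have h1 := DFunLike.congr_fun h (Ideal.Quotient.mk _ x)
    have h2 : Ideal.Quotient.mk (primeBelow A) (σ • x) =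
      Ideal.Quotient.mk (primeBelow A) (x ^ ℓ) := h1
    rw [Ideal.Quotient.eq, mem_primeBelow_iff] at h2
    exact h2
  refine ⟨σ, (isFrobeniusAt_iff A σ ℓ).2 ⟨hσ', fun x hx => ?_⟩⟩
  obtain ⟨s, b, hs, hb, hsu, hsx⟩ := exists_mul_eq A hℓ hA hx
  have h1 : σ s - s ^ ℓ ∈ A.nonunits := hint ⟨s, hs⟩
  have h2 : σ b - b ^ ℓ ∈ A.nonunits := hint ⟨b, hb⟩
  have h3 : σ x ∈ A := (apply_mem_iff hσ').2 hx
  have h4 : A.valuation s = 1 :=
    le_antisymm ((A.valuation_le_one_iff _).2 (mem_of_isIntegral A hs))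
      (not_lt.1 (fun h => hsu ((ValuationSubring.mem_nonunits_iff _).2 h)))
  have h5 : s ^ ℓ * (σ x - x ^ ℓ) = (σ b - b ^ ℓ) - (σ s - s ^ ℓ) * σ x := by
    rw [← hsx, map_mul, mul_pow]; ring
  rw [ValuationSubring.mem_nonunits_iff] at h1 h2 ⊢
  have h6 : A.valuation (s ^ ℓ * (σ x - x ^ ℓ)) < 1 := by
    rw [h5]
    refine lt_of_le_of_lt (Valuation.map_sub _ _ _) (max_lt h2 ?_)
    rw [map_mul]
    exact mul_lt_one_of_lt_of_le h1 ((A.valuation_le_one_iff _).2 h3)
  rwa [map_mul, map_pow, h4, one_pow, one_mul] at h6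

omit [CharZero L] [Algebra ℚ L] in
lemma valuation_eq_one_of_notMem_nonunits {A : ValuationSubring L} {s : L} (hs : s ∈ A)
    (hsu : s ∉ A.nonunits) : A.valuation s = 1 :=
  le_antisymm ((A.valuation_le_one_iff _).2 hs)
    (not_lt.1 (fun h => hsu ((ValuationSubring.mem_nonunits_iff _).2 h)))

/-- A valuation subring above `ℓ` is determined by its prime below in the ring of integers. -/
lemma le_of_primeBelow_eq [Algebra.IsAlgebraic ℚ L] {A A' : ValuationSubring L} {ℓ : ℕ}
    (hℓ : ℓ.Prime) (hA : A.LiesOverPrime ℓ) (h : primeBelow A = primeBelow A') : A ≤ A' := by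
  intro x hx
  obtain ⟨s, b, hs, hb, hsu, hsx⟩ := exists_mul_eq A hℓ hA hx
  have hsu' : s ∉ A'.nonunits := by
    intro h1
    apply hsu
    have h2 : (⟨s, hs⟩ : integralClosure ℤ L) ∈ primeBelow A' := (mem_primeBelow_iff _ _).2 h1
    rw [← h] at h2
    exact (mem_primeBelow_iff _ _).1 h2
  have h4 : A'.valuation s = 1 :=
    valuation_eq_one_of_notMem_nonunits (mem_of_isIntegral A' hs) hsu'
  have h5 : A'.valuation x = A'.valuation b := by
    rw [← hsx, map_mul, h4, one_mul]
  rw [← A'.valuation_le_one_iff, h5]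
  exact (A'.valuation_le_one_iff _).2 (mem_of_isIntegral A' hb)

lemma eq_of_primeBelow_eq [Algebra.IsAlgebraic ℚ L] {A A' : ValuationSubring L} {ℓ : ℕ}
    (hℓ : ℓ.Prime) (hA : A.LiesOverPrime ℓ) (hA' : A'.LiesOverPrime ℓ)
    (h : primeBelow A = primeBelow A') : A = A' :=
  le_antisymm (le_of_primeBelow_eq hℓ hA h) (le_of_primeBelow_eq hℓ hA' h.symm)

omit [CharZero L] [Algebra ℚ L] in
lemma under_primeBelow {A : ValuationSubring L} {ℓ : ℕ}
    (hℓ : ℓ.Prime) (hA : A.LiesOverPrime ℓ) :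
    (primeBelow A).under ℤ = Ideal.span {(ℓ : ℤ)} := by
  have : Fact ℓ.Prime := ⟨hℓ⟩
  symm
  apply Ideal.IsMaximal.eq_of_le
  · exact (Int.ideal_span_isMaximal_of_prime ℓ)
  · exact Ideal.IsPrime.ne_top inferInstance
  · rw [Ideal.span_singleton_le_iff_mem, Ideal.mem_comap]
    simpa using natCast_mem_primeBelow hA

omit [CharZero L] [Algebra ℚ L] in
lemma mem_nonunits_smul_iff {K : Type*} [Field K] [Algebra K L] (A : ValuationSubring L)
    (σ : L ≃ₐ[K] L) (x : L) : x ∈ (σ • A).nonunits ↔ σ⁻¹ x ∈ A.nonunits := by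
  rw [mem_nonunits_iff_inv, mem_nonunits_iff_inv,
    ValuationSubring.mem_pointwise_smul_iff_inv_smul_mem]
  have : σ⁻¹ • x⁻¹ = (σ⁻¹ x)⁻¹ := map_inv₀ σ⁻¹ x
  rw [this]
  simp

omit [CharZero L] [Algebra ℚ L] in
lemma liesOverPrime_smul {K : Type*} [Field K] [Algebra K L] {A : ValuationSubring L} {ℓ : ℕ}
    (hA : A.LiesOverPrime ℓ) (σ : L ≃ₐ[K] L) : (σ • A).LiesOverPrime ℓ := by
  rw [ValuationSubring.LiesOverPrime, mem_nonunits_smul_iff, map_natCast]
  exact hA

omit [CharZero L] in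
lemma primeBelow_smul (A : ValuationSubring L) (σ : L ≃ₐ[ℚ] L) :
    primeBelow (σ • A) = σ • primeBelow A := by
  ext x
  rw [mem_primeBelow_iff, Ideal.mem_pointwise_smul_iff_inv_smul_mem, mem_primeBelow_iff,
    mem_nonunits_smul_iff]
  rfl

/-- All places above a given prime are conjugate. -/
theorem exists_smul_eq [IsGalois ℚ L] {A A' : ValuationSubring L} {ℓ : ℕ}
    (hℓ : ℓ.Prime) (hA : A.LiesOverPrime ℓ) (hA' : A'.LiesOverPrime ℓ) :
    ∃ σ : L ≃ₐ[ℚ] L, A' = σ • A := by
  have := continuousSMul_integralClosure (L := L)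
  have := isInvariant_integralClosure (L := L)
  obtain ⟨σ, hσ⟩ := Algebra.IsInvariant.exists_smul_of_under_eq_of_profinite
    (A := ℤ) (G := L ≃ₐ[ℚ] L) (primeBelow A) (primeBelow A')
    (by rw [under_primeBelow hℓ hA, under_primeBelow hℓ hA'])
  refine ⟨σ, eq_of_primeBelow_eq hℓ hA' (liesOverPrime_smul hA σ) ?_⟩
  rw [hσ, primeBelow_smul]

end Galois

section Conj

variable {K : Type*} [Field K] [Algebra K L]

lemma mem_decompositionSubgroup_smul_iff (A : ValuationSubring L) (σ τ : L ≃ₐ[K] L) :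
    σ ∈ (τ • A).decompositionSubgroup K ↔ τ⁻¹ * σ * τ ∈ A.decompositionSubgroup K := by
  simp only [MulAction.mem_stabilizer_iff, mul_smul]
  rw [inv_smul_eq_iff]

lemma isFrobeniusAt_smul_iff (A : ValuationSubring L) (σ τ : L ≃ₐ[K] L) (q : ℕ) :
    (τ • A).IsFrobeniusAt σ q ↔ A.IsFrobeniusAt (τ⁻¹ * σ * τ) q := by
  rw [isFrobeniusAt_iff, isFrobeniusAt_iff, mem_decompositionSubgroup_smul_iff]
  refine and_congr_right (fun _ => ⟨fun h x hx => ?_, fun h x hx => ?_⟩)
  · have h1 := h (τ x) (by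
      rw [ValuationSubring.mem_pointwise_smul_iff_inv_smul_mem]
      have : τ⁻¹ • (τ x) = x := inv_smul_smul τ x
      rwa [this])
    rw [mem_nonunits_smul_iff, map_sub, map_pow] at h1
    have : τ⁻¹ (τ x) = x := inv_smul_smul τ x
    rw [this] at h1
    exact h1
  · rw [ValuationSubring.mem_pointwise_smul_iff_inv_smul_mem] at hx
    have h1 := h _ hx
    rw [mem_nonunits_smul_iff, map_sub, map_pow]
    have : (τ⁻¹ * σ * τ) (τ⁻¹ • x) = τ⁻¹ (σ x) := by
      change τ⁻¹ (σ (τ (τ⁻¹ x))) = _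
      congr 2
      exact smul_inv_smul τ x
    rw [this] at h1
    exact h1

lemma mem_inertiaSubgroupIn_smul_iff (A : ValuationSubring L) (σ τ : L ≃ₐ[K] L) :
    σ ∈ (τ • A).inertiaSubgroupIn K ↔ τ⁻¹ * σ * τ ∈ A.inertiaSubgroupIn K := by
  rw [mem_inertiaSubgroupIn_iff, mem_inertiaSubgroupIn_iff, mem_decompositionSubgroup_smul_iff]
  refine and_congr_right (fun _ => ⟨fun h x hx => ?_, fun h x hx => ?_⟩)
  · have h1 := h (τ x) (by
      rw [ValuationSubring.mem_pointwise_smul_iff_inv_smul_mem]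
      have : τ⁻¹ • (τ x) = x := inv_smul_smul τ x
      rwa [this])
    rw [mem_nonunits_smul_iff, map_sub] at h1
    have : τ⁻¹ (τ x) = x := inv_smul_smul τ x
    rw [this] at h1
    exact h1
  · rw [ValuationSubring.mem_pointwise_smul_iff_inv_smul_mem] at hx
    have h1 := h _ hx
    rw [mem_nonunits_smul_iff, map_sub]
    have : (τ⁻¹ * σ * τ) (τ⁻¹ • x) = τ⁻¹ (σ x) := by
      change τ⁻¹ (σ (τ (τ⁻¹ x))) = _
      congr 2
      exact smul_inv_smul τ x
    rw [this] at h1
    exact h1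

/-- Two Frobenius elements at the same place differ by inertia. -/
lemma IsFrobeniusAt.mul_inv_mem_inertia {A : ValuationSubring L} {σ τ : L ≃ₐ[K] L} {q : ℕ}
    (hσ : A.IsFrobeniusAt σ q) (hτ : A.IsFrobeniusAt τ q) :
    σ * τ⁻¹ ∈ A.inertiaSubgroupIn K := by
  rw [isFrobeniusAt_iff] at hσ hτ
  rw [mem_inertiaSubgroupIn_iff]
  refine ⟨mul_mem hσ.1 (inv_mem hτ.1), fun x hx => ?_⟩
  have h1 : τ⁻¹ x ∈ A := (apply_mem_iff (inv_mem hτ.1)).2 hx
  have h2 := hσ.2 _ h1
  have h3 := hτ.2 _ h1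
  have h4 : τ (τ⁻¹ x) = x := smul_inv_smul τ x
  rw [h4] at h3
  rw [ValuationSubring.mem_nonunits_iff] at h2 h3 ⊢
  have h5 : (σ * τ⁻¹) x - x = (σ (τ⁻¹ x) - (τ⁻¹ x) ^ q) - (x - (τ⁻¹ x) ^ q) := by
    rw [AlgEquiv.mul_apply]; ring
  rw [h5]
  exact lt_of_le_of_lt (Valuation.map_sub _ _ _) (max_lt h2 h3)

/-- A Frobenius times an element of inertia is a Frobenius. -/
lemma IsFrobeniusAt.inertia_mul {A : ValuationSubring L} {σ τ : L ≃ₐ[K] L} {q : ℕ}
    (hσ : A.IsFrobeniusAt σ q) (hτ : τ ∈ A.inertiaSubgroupIn K) :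
    A.IsFrobeniusAt (τ * σ) q := by
  rw [isFrobeniusAt_iff] at hσ ⊢
  rw [mem_inertiaSubgroupIn_iff] at hτ
  refine ⟨mul_mem hτ.1 hσ.1, fun x hx => ?_⟩
  have h1 := hσ.2 x hx
  have h2 := hτ.2 _ ((apply_mem_iff hσ.1).2 hx)
  rw [ValuationSubring.mem_nonunits_iff] at h1 h2 ⊢
  have h5 : (τ * σ) x - x ^ q = (τ (σ x) - σ x) + (σ x - x ^ q) := by
    rw [AlgEquiv.mul_apply]; ring
  rw [h5]
  exact lt_of_le_of_lt (Valuation.map_add _ _ _) (max_lt h2 h1)

end Conj

end Fermat.Agent.Frob
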