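import Mathlib
import Fermat.Agent.Frob.Basic

/-!
# Places and primes of subrings; restriction of decomposition, inertia, Frobenius
-/

open scoped Pointwise NumberField
open Polynomial IsLocalRing

namespace Fermat.Agent.Frob

section below

variable {L : Type*} [Field L] (R : Type*) [CommRing R] [Algebra.IsIntegral ℤ R] [Algebra R L]

/-- The prime of `R` (integral over `ℤ`) below a valuation subring. -/
def below (A : ValuationSubring L) : Ideal R :=
  (maximalIdeal A).comap ((algebraMap R L).codRestrict A.toSubring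
    (fun x => mem_of_isIntegral A ((Algebra.IsIntegral.isIntegral (R := ℤ) x).map
      ((algebraMap R L).toIntAlgHom))))

instance below_isPrime (A : ValuationSubring L) : (below R A).IsPrime := by
  unfold below; infer_instance

variable {R}

lemma mem_below {A : ValuationSubring L} {x : R} : x ∈ below R A ↔ algebraMap R L x ∈ A.nonunits := by
  rw [below, Ideal.mem_comap, ValuationSubring.mem_nonunits_iff_exists_mem_maximalIdeal]
  constructor
  · intro h
    exact ⟨_, h⟩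
  · rintro ⟨_, h⟩
    exact h

variable (R) in
lemma below_comap {R' : Type*} [CommRing R'] [Algebra.IsIntegral ℤ R'] [Algebra R' L]
    [Algebra R R'] [IsScalarTower R R' L] (A : ValuationSubring L) :
    (below R' A).comap (algebraMap R R') = below R A := by
  ext x
  rw [Ideal.mem_comap, mem_below, mem_below, ← IsScalarTower.algebraMap_apply]

instance below_liesOver {R' : Type*} [CommRing R'] [Algebra.IsIntegral ℤ R'] [Algebra R' L]
    [Algebra R R'] [IsScalarTower R R' L] (A : ValuationSubring L) :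
    (below R' A).LiesOver (below R A) := ⟨(below_comap R A).symm⟩

lemma natCast_mem_below {A : ValuationSubring L} {ℓ : ℕ} (hA : A.LiesOverPrime ℓ) :
    (ℓ : R) ∈ below R A := by
  rw [mem_below, map_natCast]
  exact hA

variable (R) in
lemma below_under_int {A : ValuationSubring L} {ℓ : ℕ} (hℓ : ℓ.Prime)
    (hA : A.LiesOverPrime ℓ) : (below R A).under ℤ = Ideal.span {(ℓ : ℤ)} := by
  have : Fact ℓ.Prime := ⟨hℓ⟩
  symm
  apply Ideal.IsMaximal.eq_of_le
  · exact (Int.ideal_span_isMaximal_of_prime ℓ)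
  · exact Ideal.IsPrime.ne_top inferInstance
  · rw [Ideal.span_singleton_le_iff_mem, Ideal.mem_comap]
    simpa using natCast_mem_below (R := R) hA

variable (R) in
lemma below_isMaximal {A : ValuationSubring L} {ℓ : ℕ} (hℓ : ℓ.Prime)
    (hA : A.LiesOverPrime ℓ) : (below R A).IsMaximal := by
  have : Fact ℓ.Prime := ⟨hℓ⟩
  apply Ideal.isMaximal_of_isIntegral_of_isMaximal_comap (R := ℤ)
  have := below_under_int R hℓ hA
  rw [Ideal.under] at this
  rw [this]
  exact (Int.ideal_span_isMaximal_of_prime ℓ)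

lemma below_eq_primeBelow (A : ValuationSubring L) :
    below (integralClosure ℤ L) A = primeBelow A := by
  ext x
  rw [mem_below, mem_primeBelow_iff]
  rfl

/-- Every proper ideal of `R` is contained in the prime below some place. -/
lemma exists_le_below [FaithfulSMul R L] (I : Ideal R) (hI : I ≠ ⊤) :
    ∃ A : ValuationSubring L, I ≤ below R A := by
  let B : Subring L := (algebraMap R L).range
  let e : R →+* B := (algebraMap R L).rangeRestrict
  have he : Function.Bijective e :=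
    ⟨fun x y h => FaithfulSMul.algebraMap_injective R L (congrArg Subtype.val h),
      (algebraMap R L).rangeRestrict_surjective⟩
  let e' : R ≃+* B := RingEquiv.ofBijective e he
  have hI' : I.map e' ≠ ⊤ := by
    intro h
    apply hI
    have := congrArg (Ideal.comap e') h
    rwa [Ideal.comap_map_of_bijective e' e'.bijective, Ideal.comap_top] at this
  obtain ⟨A, -, hA⟩ := Ideal.image_subset_nonunits_valuationSubring _ hI'
  refine ⟨A, fun x hx => ?_⟩
  rw [mem_below]
  exact hA ⟨e' x, Ideal.mem_map_of_mem e' hx, rfl⟩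

/-- Every maximal ideal of `R` is the prime below some place. -/
lemma exists_below_eq [FaithfulSMul R L] (P : Ideal R) [hP : P.IsMaximal] :
    ∃ A : ValuationSubring L, below R A = P := by
  obtain ⟨A, hA⟩ := exists_le_below (L := L) P hP.ne_top
  exact ⟨A, (hP.eq_of_le (Ideal.IsPrime.ne_top inferInstance) hA).symm⟩

lemma liesOverPrime_of_mem_below {A : ValuationSubring L} {ℓ : ℕ}
    (h : (ℓ : R) ∈ below R A) : A.LiesOverPrime ℓ := by
  rw [mem_below, map_natCast] at h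
  exact h

end below

section Relative

variable {L : Type*} [Field L] [CharZero L] [Algebra ℚ L] [Algebra.IsAlgebraic ℚ L]
variable {K : Type*} [Field K] [Algebra K L]

omit [CharZero L] [Algebra ℚ L] [Algebra.IsAlgebraic ℚ L] in
lemma isIntegral_apply (σ : L ≃ₐ[K] L) {x : L} (hx : IsIntegral ℤ x) : IsIntegral ℤ (σ x) :=
  hx.map ((σ : L →+* L).toIntAlgHom)

/-- `σ` is in the decomposition group iff it preserves the nonunits among algebraic integers. -/
lemma mem_decompositionSubgroup_of_forall (A : ValuationSubring L) {ℓ : ℕ}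
    (hℓ : ℓ.Prime) (hA : A.LiesOverPrime ℓ) (σ : L ≃ₐ[K] L)
    (h : ∀ x : L, IsIntegral ℤ x → (σ x ∈ A.nonunits ↔ x ∈ A.nonunits)) :
    σ ∈ A.decompositionSubgroup K := by
  have key : ∀ (σ : L ≃ₐ[K] L), (∀ x : L, IsIntegral ℤ x → (σ x ∈ A.nonunits ↔ x ∈ A.nonunits)) →
      ∀ x ∈ A, σ x ∈ A := by
    intro σ hσ x hx
    obtain ⟨s, b, hs, hb, hsu, hsx⟩ := exists_mul_eq A hℓ hA hx
    have h1 : (σ s) ∉ A.nonunits := fun hmem => hsu ((hσ s hs).1 hmem)
    have h3 : σ s * σ x = σ b := by rw [← map_mul, hsx]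
    have h4 : A.valuation (σ s) = 1 := valuation_eq_one_of_notMem_nonunits
      (mem_of_isIntegral A (isIntegral_apply σ hs)) h1
    have h5 : A.valuation (σ x) = A.valuation (σ b) := by
      rw [← h3, map_mul, h4, one_mul]
    rw [← A.valuation_le_one_iff, h5]
    exact (A.valuation_le_one_iff _).2 (mem_of_isIntegral A (isIntegral_apply σ hb))
  change σ • A = A
  ext x
  rw [ValuationSubring.mem_pointwise_smul_iff_inv_smul_mem]
  constructor
  · intro hx
    have h1 := key σ h _ hx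
    have h2 : σ (σ⁻¹ • x) = x := smul_inv_smul σ x
    rwa [h2] at h1
  · intro hx
    refine key σ⁻¹ (fun y hy => ?_) x hx
    have h1 := h (σ⁻¹ y) (isIntegral_apply σ⁻¹ hy)
    have h2 : σ (σ⁻¹ y) = y := smul_inv_smul σ y
    rw [h2] at h1
    exact h1.symm

lemma mem_decompositionSubgroup_iff_below (A : ValuationSubring L) {ℓ : ℕ}
    (hℓ : ℓ.Prime) (hA : A.LiesOverPrime ℓ) (σ : L ≃ₐ[K] L) :
    σ ∈ A.decompositionSubgroup K ↔ σ • below (𝓞 L) A = below (𝓞 L) A := by
  constructor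
  · intro h
    ext x
    rw [Ideal.mem_pointwise_smul_iff_inv_smul_mem, mem_below, mem_below]
    exact apply_mem_nonunits_iff (inv_mem h)
  · intro h
    refine mem_decompositionSubgroup_of_forall A hℓ hA σ (fun x hx => ?_)
    let y : 𝓞 L := ⟨x, hx⟩
    have h1 : (σ • y) ∈ σ • below (𝓞 L) A ↔ y ∈ below (𝓞 L) A :=
      Ideal.smul_mem_pointwise_smul_iff
    rw [h, mem_below, mem_below] at h1
    exact h1

omit [CharZero L] [Algebra ℚ L] [Algebra.IsAlgebraic ℚ L] in
lemma smulCommClass_ringOfIntegers : SMulCommClass (L ≃ₐ[K] L) (𝓞 K) (𝓞 L) := by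
  constructor
  intro σ a x
  apply NumberField.RingOfIntegers.ext
  rw [Algebra.smul_def, Algebra.smul_def, smul_mul']
  change σ (algebraMap K L (a : K)) * σ (x : L) = algebraMap K L (a : K) * σ (x : L)
  rw [AlgEquiv.commutes]

variable (K L) in
omit [CharZero L] in
lemma continuousSMul_ringOfIntegers [Algebra ℚ K] [IsScalarTower ℚ K L] :
    let : TopologicalSpace (𝓞 L) := ⊥
    ContinuousSMul (L ≃ₐ[K] L) (𝓞 L) := by
  let : TopologicalSpace (𝓞 L) := ⊥
  have : DiscreteTopology (𝓞 L) := ⟨rfl⟩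
  have : Algebra.IsAlgebraic K L := Algebra.IsAlgebraic.tower_top (K := ℚ) K
  rw [continuousSMul_iff_stabilizer_isOpen]
  intro x
  have h := stabilizer_isOpen_of_isIntegral (K := K) (L := L) (x : L)
  convert h using 1
  ext σ
  simp only [SetLike.mem_coe, MulAction.mem_stabilizer_iff]
  rw [NumberField.RingOfIntegers.ext_iff]
  rfl

variable (K L) in
omit [CharZero L] [Algebra ℚ L] [Algebra.IsAlgebraic ℚ L] in
lemma isInvariant_ringOfIntegers [IsGalois K L] :
    Algebra.IsInvariant (𝓞 K) (𝓞 L) (L ≃ₐ[K] L) := by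
  constructor
  intro b hb
  obtain ⟨q, hq⟩ := (InfiniteGalois.mem_range_algebraMap_iff_fixed (k := K) (b : L)).2
    (fun σ => congrArg Subtype.val (hb σ))
  have hint : IsIntegral ℤ q := by
    have := b.2
    change IsIntegral ℤ (b : L) at this
    rw [← hq] at this
    exact (isIntegral_algebraMap_iff (algebraMap K L).injective).1 this
  refine ⟨⟨q, hint⟩, ?_⟩
  apply NumberField.RingOfIntegers.ext
  exact hq

/-- The decomposition group surjects onto the automorphisms of the residue ring. -/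
theorem exists_mem_decomposition_of_algEquiv [Algebra ℚ K] [IsScalarTower ℚ K L] [IsGalois K L]
    (A : ValuationSubring L) {ℓ : ℕ} (hℓ : ℓ.Prime) (hA : A.LiesOverPrime ℓ)
    (φ : (𝓞 L ⧸ below (𝓞 L) A) ≃ₐ[𝓞 K ⧸ below (𝓞 K) A] (𝓞 L ⧸ below (𝓞 L) A)) :
    ∃ σ : L ≃ₐ[K] L, σ ∈ A.decompositionSubgroup K ∧
      ∀ x : 𝓞 L, Ideal.Quotient.mk (below (𝓞 L) A) (σ • x) =
        φ (Ideal.Quotient.mk (below (𝓞 L) A) x) := by
  let : TopologicalSpace (𝓞 L) := ⊥
  have : DiscreteTopology (𝓞 L) := ⟨rfl⟩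
  have := smulCommClass_ringOfIntegers (K := K) (L := L)
  have := continuousSMul_ringOfIntegers (K := K) (L := L)
  have := isInvariant_ringOfIntegers (K := K) (L := L)
  obtain ⟨⟨σ, hσ⟩, h⟩ := Ideal.Quotient.stabilizerHom_surjective_of_profinite
    (G := L ≃ₐ[K] L) (below (𝓞 K) A) (below (𝓞 L) A) φ
  refine ⟨σ, (mem_decompositionSubgroup_iff_below A hℓ hA σ).2 hσ, fun x => ?_⟩
  exact DFunLike.congr_fun h (Ideal.Quotient.mk _ x)

lemma eq_of_below_eq {A A' : ValuationSubring L} {ℓ : ℕ}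
    (hℓ : ℓ.Prime) (hA : A.LiesOverPrime ℓ) (hA' : A'.LiesOverPrime ℓ)
    (h : below (𝓞 L) A = below (𝓞 L) A') : A = A' := by
  refine eq_of_primeBelow_eq hℓ hA hA' ?_
  ext x
  let y : 𝓞 L := ⟨(x : L), x.2⟩
  have h1 : y ∈ below (𝓞 L) A ↔ y ∈ below (𝓞 L) A' := by rw [h]
  rw [mem_below, mem_below] at h1
  rw [mem_primeBelow_iff, mem_primeBelow_iff]
  exact h1

/-- Places of `L` above the same prime of `K` are conjugate. -/
theorem exists_smul_eq_of_below_eq [Algebra ℚ K] [IsScalarTower ℚ K L] [IsGalois K L]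
    {A A' : ValuationSubring L} {ℓ : ℕ} (hℓ : ℓ.Prime) (hA : A.LiesOverPrime ℓ)
    (h : below (𝓞 K) A = below (𝓞 K) A') : ∃ σ : L ≃ₐ[K] L, A' = σ • A := by
  have hA' : A'.LiesOverPrime ℓ := by
    apply liesOverPrime_of_mem_below (R := 𝓞 K)
    rw [← h]
    exact natCast_mem_below hA
  let : TopologicalSpace (𝓞 L) := ⊥
  have : DiscreteTopology (𝓞 L) := ⟨rfl⟩
  have := smulCommClass_ringOfIntegers (K := K) (L := L)
  have := continuousSMul_ringOfIntegers (K := K) (L := L)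
  have := isInvariant_ringOfIntegers (K := K) (L := L)
  obtain ⟨σ, hσ⟩ := Algebra.IsInvariant.exists_smul_of_under_eq_of_profinite
    (A := 𝓞 K) (G := L ≃ₐ[K] L) (below (𝓞 L) A) (below (𝓞 L) A')
    (by
      rw [Ideal.under, Ideal.under, below_comap, below_comap]
      exact h)
  refine ⟨σ, eq_of_below_eq hℓ hA' (liesOverPrime_smul hA σ) ?_⟩
  rw [hσ]
  ext x
  rw [Ideal.mem_pointwise_smul_iff_inv_smul_mem, mem_below, mem_below, mem_nonunits_smul_iff]
  rfl

omit [CharZero L] [Algebra ℚ L] [Algebra.IsAlgebraic ℚ L] in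
lemma below_smul (A : ValuationSubring L) (σ : L ≃ₐ[K] L) :
    below (𝓞 L) (σ • A) = σ • below (𝓞 L) A := by
  ext x
  rw [Ideal.mem_pointwise_smul_iff_inv_smul_mem, mem_below, mem_below, mem_nonunits_smul_iff]
  rfl

/-- Every element of `A` is congruent to an algebraic integer. -/
lemma exists_integral_sub_mem (A : ValuationSubring L) {ℓ : ℕ} (hℓ : ℓ.Prime)
    (hA : A.LiesOverPrime ℓ) {x : L} (hx : x ∈ A) :
    ∃ y : 𝓞 L, x - y ∈ A.nonunits := by
  obtain ⟨s, b, hs, hb, hsu, hsx⟩ := exists_mul_eq A hℓ hA hx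
  have hmax := below_isMaximal (𝓞 L) hℓ hA
  let s' : 𝓞 L := ⟨s, hs⟩
  let b' : 𝓞 L := ⟨b, hb⟩
  have hs' : s' ∉ below (𝓞 L) A := by
    rw [mem_below]; exact hsu
  obtain ⟨t, ht⟩ := hmax.exists_inv hs'
  obtain ⟨i, hi, hti⟩ := ht
  refine ⟨b' * t, ?_⟩
  rw [mem_below] at hi
  have h1 : (t : L) * s + (i : L) = 1 := by
    have := congrArg (algebraMap (𝓞 L) L) hti
    rw [map_add, map_mul, map_one] at this
    exact this
  have h2 : x - ((b' * t : 𝓞 L) : L) = x * (i : L) := by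
    have h3 : ((b' * t : 𝓞 L) : L) = b * (t : L) := by simp [b']
    rw [h3, ← hsx]
    have : (i : L) = 1 - (t : L) * s := by rw [← h1]; ring
    rw [this]; ring
  rw [h2, ValuationSubring.mem_nonunits_iff, map_mul, mul_comm]
  exact mul_lt_one_of_lt_of_le ((ValuationSubring.mem_nonunits_iff _).1 hi)
    ((A.valuation_le_one_iff _).2 hx)

/-- criterion for inertia: enough to check integral elements -/
lemma mem_inertiaSubgroupIn_of_forall (A : ValuationSubring L) {ℓ : ℕ} (hℓ : ℓ.Prime)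
    (hA : A.LiesOverPrime ℓ) (σ : L ≃ₐ[K] L)
    (h : ∀ x : L, IsIntegral ℤ x → σ x - x ∈ A.nonunits) :
    σ ∈ A.inertiaSubgroupIn K := by
  rw [mem_inertiaSubgroupIn_iff]
  have hdec : σ ∈ A.decompositionSubgroup K := by
    refine mem_decompositionSubgroup_of_forall A hℓ hA σ (fun x hx => ?_)
    have h1 := h x hx
    rw [ValuationSubring.mem_nonunits_iff] at h1 ⊢
    rw [ValuationSubring.mem_nonunits_iff]
    constructor
    · intro h2
      have : x = σ x - (σ x - x) := by ring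
      rw [this]
      exact lt_of_le_of_lt (Valuation.map_sub _ _ _) (max_lt h2 h1)
    · intro h2
      have : σ x = x + (σ x - x) := by ring
      rw [this]
      exact lt_of_le_of_lt (Valuation.map_add _ _ _) (max_lt h2 h1)
  refine ⟨hdec, fun x hx => ?_⟩
  obtain ⟨y, hy⟩ := exists_integral_sub_mem A hℓ hA hx
  have h1 := h (y : L) y.2
  have h2 : σ (x - y) ∈ A.nonunits := (apply_mem_nonunits_iff hdec).2 hy
  rw [ValuationSubring.mem_nonunits_iff] at h1 h2 hy ⊢
  have : σ x - x = (σ (x - y) - (x - y)) + (σ (y : L) - y) := by rw [map_sub]; ring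
  rw [this]
  exact lt_of_le_of_lt (Valuation.map_add _ _ _)
    (max_lt (lt_of_le_of_lt (Valuation.map_sub _ _ _) (max_lt h2 hy)) h1)

end Relative

section Restrict

variable {L : Type*} [Field L] [CharZero L] [Algebra ℚ L] [Algebra.IsAlgebraic ℚ L]
variable {K : Type*} [Field K] [Algebra K L]
variable (F : Type*) [Field F] [Algebra F L] [Algebra K F] [IsScalarTower K F L] [Normal K F]

omit [CharZero L] [Algebra ℚ L] [Algebra.IsAlgebraic ℚ L] in
lemma coe_restrictNormal_smul (σ : L ≃ₐ[K] L) (x : 𝓞 F) :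
    algebraMap (𝓞 F) L ((σ.restrictNormal F) • x) = σ (algebraMap (𝓞 F) L x) := by
  have h1 : ((σ.restrictNormal F • x : 𝓞 F) : F) = σ.restrictNormal F (x : F) := rfl
  rw [IsScalarTower.algebraMap_apply (𝓞 F) F L, IsScalarTower.algebraMap_apply (𝓞 F) F L]
  exact AlgEquiv.restrictNormal_commutes σ F (x : F)

omit [CharZero L] [Algebra ℚ L] [Algebra.IsAlgebraic ℚ L] in
lemma below_smul_restrict (A : ValuationSubring L) (σ : L ≃ₐ[K] L) :
    below (𝓞 F) (σ • A) = (σ.restrictNormal F) • below (𝓞 F) A := by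
  ext x
  rw [Ideal.mem_pointwise_smul_iff_inv_smul_mem, mem_below, mem_below, mem_nonunits_smul_iff]
  have h : (σ.restrictNormal F)⁻¹ = (σ⁻¹).restrictNormal F :=
    (map_inv (AlgEquiv.restrictNormalHom (F := K) (K₁ := L) F) σ).symm
  rw [h, coe_restrictNormal_smul]

omit [CharZero L] [Algebra ℚ L] [Algebra.IsAlgebraic ℚ L] in
/-- The decomposition group restricts to the stabiliser. -/
lemma restrictNormal_smul_below {A : ValuationSubring L} {σ : L ≃ₐ[K] L}
    (hσ : σ ∈ A.decompositionSubgroup K) :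
    (σ.restrictNormal F) • below (𝓞 F) A = below (𝓞 F) A := by
  have h : σ • A = A := hσ
  rw [← below_smul_restrict, h]

omit [CharZero L] [Algebra ℚ L] [Algebra.IsAlgebraic ℚ L] in
/-- Inertia restricts to inertia. -/
lemma restrictNormal_mem_inertia {A : ValuationSubring L} {σ : L ≃ₐ[K] L}
    (hσ : σ ∈ A.inertiaSubgroupIn K) :
    σ.restrictNormal F ∈ (below (𝓞 F) A).inertia (F ≃ₐ[K] F) := by
  intro x
  change σ.restrictNormal F • x - x ∈ below (𝓞 F) A
  rw [mem_below, map_sub, coe_restrictNormal_smul]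
  exact ((mem_inertiaSubgroupIn_iff A σ).1 hσ).2 _
    (mem_of_isIntegral A ((Algebra.IsIntegral.isIntegral (R := ℤ) x).map
      ((algebraMap (𝓞 F) L).toIntAlgHom)))

omit [CharZero L] [Algebra ℚ L] [Algebra.IsAlgebraic ℚ L] in
lemma sub_pow_mem_below_of_isFrobeniusAt {A : ValuationSubring L} {σ : L ≃ₐ[K] L} {q : ℕ}
    (hσ : A.IsFrobeniusAt σ q) (x : 𝓞 F) :
    (σ.restrictNormal F) • x - x ^ q ∈ below (𝓞 F) A := by
  rw [mem_below, map_sub, coe_restrictNormal_smul, map_pow]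
  exact ((isFrobeniusAt_iff A σ q).1 hσ).2 _
    (mem_of_isIntegral A ((Algebra.IsIntegral.isIntegral (R := ℤ) x).map
      ((algebraMap (𝓞 F) L).toIntAlgHom)))

omit [CharZero L] [Algebra ℚ L] [Algebra.IsAlgebraic ℚ L] [Algebra K L] [IsScalarTower K F L]
  [Normal K F] in
/-- Congruence characterisation of `IsArithFrobAt ℤ` at the prime below a place over `ℓ`. -/
lemma isArithFrobAt_below_iff {A : ValuationSubring L} {ℓ : ℕ} (hℓ : ℓ.Prime)
    (hA : A.LiesOverPrime ℓ) (τ : F ≃ₐ[K] F) :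
    IsArithFrobAt ℤ τ (below (𝓞 F) A) ↔ ∀ x : 𝓞 F, τ • x - x ^ ℓ ∈ below (𝓞 F) A := by
  have hcard : Nat.card (ℤ ⧸ (below (𝓞 F) A).under ℤ) = ℓ := by
    rw [below_under_int (𝓞 F) hℓ hA, Nat.card_congr (Int.quotientSpanNatEquivZMod ℓ).toEquiv,
      Nat.card_zmod]
  have h : IsArithFrobAt ℤ τ (below (𝓞 F) A) ↔
      ∀ x : 𝓞 F, τ • x - x ^ Nat.card (ℤ ⧸ (below (𝓞 F) A).under ℤ) ∈ below (𝓞 F) A := Iff.rfl
  rw [h, hcard]

omit [CharZero L] [Algebra ℚ L] [Algebra.IsAlgebraic ℚ L] in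
/-- Frobenius restricts to (arithmetic) Frobenius. -/
lemma restrictNormal_isArithFrobAt {A : ValuationSubring L} {ℓ : ℕ} (hℓ : ℓ.Prime)
    (hA : A.LiesOverPrime ℓ) {σ : L ≃ₐ[K] L} (hσ : A.IsFrobeniusAt σ ℓ) :
    IsArithFrobAt ℤ (σ.restrictNormal F) (below (𝓞 F) A) :=
  (isArithFrobAt_below_iff F hℓ hA _).2 (sub_pow_mem_below_of_isFrobeniusAt F hσ)

variable [Algebra ℚ K] [Algebra ℚ F] [IsScalarTower ℚ K L] [IsScalarTower ℚ F L] [IsGalois K L]

omit [Algebra ℚ K] [IsScalarTower ℚ K L] in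
/-- The decomposition group surjects onto the stabiliser of the prime below. -/
theorem exists_mem_decomposition_restrict (A : ValuationSubring L) {ℓ : ℕ} (hℓ : ℓ.Prime)
    (hA : A.LiesOverPrime ℓ) (τ : F ≃ₐ[K] F) (hτ : τ • below (𝓞 F) A = below (𝓞 F) A) :
    ∃ σ : L ≃ₐ[K] L, σ ∈ A.decompositionSubgroup K ∧ σ.restrictNormal F = τ := by
  have : Normal K L := IsGalois.to_normal
  obtain ⟨σ₀, hσ₀⟩ := AlgEquiv.restrictNormalHom_surjective (F := K) (K₁ := F) (E := L) τ
  have hσ₀' : σ₀.restrictNormal F = τ := hσ₀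
  have hA₀ : (σ₀ • A).LiesOverPrime ℓ := liesOverPrime_smul hA σ₀
  have hb : below (𝓞 F) (σ₀ • A) = below (𝓞 F) A := by
    rw [below_smul_restrict F, hσ₀', hτ]
  have : IsGalois F L := IsGalois.tower_top_of_isGalois K F L
  obtain ⟨g, hg⟩ := exists_smul_eq_of_below_eq (K := F) hℓ hA₀ hb
  refine ⟨(g.restrictScalars K) * σ₀, ?_, ?_⟩
  · change ((g.restrictScalars K) * σ₀) • A = A
    rw [mul_smul]
    conv_rhs => rw [hg]
    rfl
  · have h1 : ((g.restrictScalars K) * σ₀).restrictNormal F =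
        (g.restrictScalars K).restrictNormal F * σ₀.restrictNormal F :=
      map_mul (AlgEquiv.restrictNormalHom (F := K) (K₁ := L) F) _ _
    rw [h1, hσ₀']
    have h2 : (g.restrictScalars K).restrictNormal F = 1 := by
      ext x
      apply (algebraMap F L).injective
      rw [AlgEquiv.restrictNormal_commutes]
      simp
    rw [h2, one_mul]

omit [Algebra ℚ K] [IsScalarTower ℚ K L] in
/-- The inertia group surjects onto the inertia group of the prime below. -/
theorem exists_mem_inertia_restrict (A : ValuationSubring L) {ℓ : ℕ} (hℓ : ℓ.Prime)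
    (hA : A.LiesOverPrime ℓ) (τ : F ≃ₐ[K] F)
    (hτ : τ ∈ (below (𝓞 F) A).inertia (F ≃ₐ[K] F)) :
    ∃ σ : L ≃ₐ[K] L, σ ∈ A.inertiaSubgroupIn K ∧ σ.restrictNormal F = τ := by
  have : Normal K L := IsGalois.to_normal
  have : IsGalois F L := IsGalois.tower_top_of_isGalois K F L
  have hτx : ∀ x : 𝓞 F, τ • x - x ∈ below (𝓞 F) A := fun x => hτ x
  -- `τ` stabilises the prime
  have hstab : ∀ τ : F ≃ₐ[K] F, (∀ x : 𝓞 F, τ • x - x ∈ below (𝓞 F) A) →
      below (𝓞 F) A ≤ τ • below (𝓞 F) A := by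
    intro τ hτ x hx
    rw [Ideal.mem_pointwise_smul_iff_inv_smul_mem]
    have h1 := hτ (τ⁻¹ • x)
    rw [smul_inv_smul] at h1
    have : τ⁻¹ • x = x - (x - τ⁻¹ • x) := by ring
    rw [this]
    exact sub_mem hx h1
  have hτ' : τ • below (𝓞 F) A = below (𝓞 F) A := by
    apply le_antisymm
    · have h1 := hstab τ⁻¹ (fun x => by
        have h2 := hτx (τ⁻¹ • x)
        rw [smul_inv_smul] at h2
        rw [← neg_sub]
        exact neg_mem h2)
      have h3 : τ • below (𝓞 F) A ≤ τ • (τ⁻¹ • below (𝓞 F) A) := smul_mono_right _ h1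
      rwa [smul_inv_smul] at h3
    · exact hstab τ hτx
  obtain ⟨σ₁, hσ₁, hσ₁'⟩ := exists_mem_decomposition_restrict F A hℓ hA τ hτ'
  -- action of `σ₁` on the residue ring
  let Q := below (𝓞 L) A
  have hQ : ∀ (σ : L ≃ₐ[K] L), σ ∈ A.decompositionSubgroup K → ∀ a ∈ Q, σ • a ∈ Q := by
    intro σ hσ a ha
    have h1 := (mem_decompositionSubgroup_iff_below A hℓ hA σ).1 hσ
    change σ • a ∈ below (𝓞 L) A
    rw [← h1]
    exact Ideal.smul_mem_pointwise_smul σ a _ ha
  let f : (𝓞 L ⧸ Q) →+* (𝓞 L ⧸ Q) :=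
    Ideal.quotientMap Q (MulSemiringAction.toRingHom (L ≃ₐ[K] L) (𝓞 L) σ₁) (hQ σ₁ hσ₁)
  let g : (𝓞 L ⧸ Q) →+* (𝓞 L ⧸ Q) :=
    Ideal.quotientMap Q (MulSemiringAction.toRingHom (L ≃ₐ[K] L) (𝓞 L) σ₁⁻¹)
      (hQ σ₁⁻¹ (inv_mem hσ₁))
  have hfg : f.comp g = RingHom.id _ := by
    refine Ideal.Quotient.ringHom_ext ?_
    ext x
    simp [f, g]
  have hgf : g.comp f = RingHom.id _ := by
    refine Ideal.Quotient.ringHom_ext ?_
    ext x
    simp [f, g]
  let e : (𝓞 L ⧸ Q) ≃+* (𝓞 L ⧸ Q) := RingEquiv.ofRingHom f g hfg hgf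
  have he : ∀ x : 𝓞 L, e (Ideal.Quotient.mk Q x) = Ideal.Quotient.mk Q (σ₁ • x) := fun x => rfl
  let e' : (𝓞 L ⧸ Q) ≃ₐ[𝓞 F ⧸ below (𝓞 F) A] (𝓞 L ⧸ Q) := AlgEquiv.ofRingEquiv (f := e) (by
    intro r
    obtain ⟨r, rfl⟩ := Ideal.Quotient.mk_surjective r
    change e (Ideal.Quotient.mk Q (algebraMap (𝓞 F) (𝓞 L) r)) =
      Ideal.Quotient.mk Q (algebraMap (𝓞 F) (𝓞 L) r)
    rw [he, Ideal.Quotient.eq, mem_below, map_sub]
    have h1 := hτx r
    rw [mem_below, map_sub, ← hσ₁', coe_restrictNormal_smul] at h1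
    exact h1)
  obtain ⟨γ, hγ, hγ'⟩ := exists_mem_decomposition_of_algEquiv (K := F) A hℓ hA e'
  refine ⟨σ₁ * (γ.restrictScalars K)⁻¹, ?_, ?_⟩
  · refine mem_inertiaSubgroupIn_of_forall A hℓ hA _ (fun x hx => ?_)
    let y : 𝓞 L := ⟨x, hx⟩
    let z : 𝓞 L := γ⁻¹ • y
    have h1 : Ideal.Quotient.mk Q (γ • z) = Ideal.Quotient.mk Q (σ₁ • z) := by
      rw [hγ' z]
      rfl
    have h2 : γ • z = y := smul_inv_smul γ y
    rw [h2, eq_comm, Ideal.Quotient.eq, mem_below, map_sub] at h1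
    exact h1
  · have h1 : (σ₁ * (γ.restrictScalars K)⁻¹).restrictNormal F =
        σ₁.restrictNormal F * ((γ.restrictScalars K).restrictNormal F)⁻¹ := by
      have h := map_mul (AlgEquiv.restrictNormalHom (F := K) (K₁ := L) F) σ₁
        (γ.restrictScalars K)⁻¹
      rw [map_inv] at h
      exact h
    have h2 : (γ.restrictScalars K).restrictNormal F = 1 := by
      ext x
      apply (algebraMap F L).injective
      rw [AlgEquiv.restrictNormal_commutes]
      simp
    rw [h1, h2, hσ₁', inv_one, mul_one]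

end Restrict

section RestrictRat

variable {L : Type*} [Field L] [CharZero L] [Algebra ℚ L] [IsGalois ℚ L]
variable (F : Type*) [Field F] [Algebra F L] [Algebra ℚ F] [IsScalarTower ℚ F L] [Normal ℚ F]

/-- Arithmetic Frobenius elements of `F` lift to Frobenius elements of `L`. -/
theorem exists_isFrobeniusAt_restrict (A : ValuationSubring L) {ℓ : ℕ} (hℓ : ℓ.Prime)
    (hA : A.LiesOverPrime ℓ) (τ : F ≃ₐ[ℚ] F) (hτ : IsArithFrobAt ℤ τ (below (𝓞 F) A)) :
    ∃ σ : L ≃ₐ[ℚ] L, A.IsFrobeniusAt σ ℓ ∧ σ.restrictNormal F = τ := by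
  have : Normal ℚ L := IsGalois.to_normal
  obtain ⟨σ₀, hσ₀⟩ := exists_isFrobeniusAt A hℓ hA
  have h1 := restrictNormal_isArithFrobAt F hℓ hA hσ₀
  have h2 := hτ.mul_inv_mem_inertia h1
  obtain ⟨γ, hγ, hγ'⟩ := exists_mem_inertia_restrict F A hℓ hA _ h2
  refine ⟨γ * σ₀, IsFrobeniusAt.inertia_mul hσ₀ hγ, ?_⟩
  have h3 : (γ * σ₀).restrictNormal F = γ.restrictNormal F * σ₀.restrictNormal F :=
    map_mul (AlgEquiv.restrictNormalHom (F := ℚ) (K₁ := L) F) _ _
  rw [h3, hγ']
  simp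

end RestrictRat

end Fermat.Agent.Frob
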