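import Mathlib
import Fermat.Agent.Frob.Places

/-!
# Minkowski's theorem in terms of inertia subgroups of `Gal(ℚ̄/ℚ)`
-/

open scoped Pointwise NumberField
open Polynomial IsLocalRing

namespace Fermat.Agent.Frob

/-- Minkowski : a finite Galois extension of `ℚ` on which all inertia groups act trivially is
trivial. -/
theorem finrank_eq_one_of_inertia_le {L : Type*} [Field L] [CharZero L] [Algebra ℚ L]
    [IsGalois ℚ L] (F : Type*) [Field F] [NumberField F] [Algebra F L] [IsGalois ℚ F]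
    (h : ∀ ℓ : ℕ, ℓ.Prime → ∀ A : ValuationSubring L, A.LiesOverPrime ℓ →
      ∀ σ ∈ A.inertiaSubgroupIn ℚ, ∀ x : F, σ (algebraMap F L x) = algebraMap F L x) :
    Module.finrank ℚ F = 1 := by
  have : IsScalarTower ℚ F L := IsScalarTower.of_algebraMap_eq' (Subsingleton.elim _ _)
  have : Normal ℚ F := IsGalois.to_normal
  by_contra hne
  have hpos : 0 < Module.finrank ℚ F := Module.finrank_pos
  obtain ⟨p, hp, hp'⟩ := NumberField.exists_not_isUnramifiedAt_int_of_isGalois (K := F)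
    (𝒪 := 𝓞 F) (by omega)
  obtain ⟨A, hA⟩ := exists_liesOverPrime L hp
  have h1 := hp' (below (𝓞 F) A) inferInstance (natCast_mem_below hA)
  apply h1
  -- inertia group at `below (𝓞 F) A` is trivial
  have htriv : ∀ τ ∈ (below (𝓞 F) A).inertia (F ≃ₐ[ℚ] F), τ = 1 := by
    intro τ hτ
    obtain ⟨σ, hσ, rfl⟩ := exists_mem_inertia_restrict F A hp hA τ hτ
    ext x
    apply (algebraMap F L).injective
    rw [AlgEquiv.restrictNormal_commutes, h p hp A hA σ hσ x]
    rfl
  have hcard : Nat.card ((below (𝓞 F) A).inertia (F ≃ₐ[ℚ] F)) = 1 := by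
    rw [Nat.card_eq_one_iff_unique]
    exact ⟨⟨fun a b => Subtype.ext (by rw [htriv a a.2, htriv b b.2])⟩, ⟨1⟩⟩
  have : IsGaloisGroup (F ≃ₐ[ℚ] F) ℤ (𝓞 F) := IsGaloisGroup.of_isFractionRing _ ℤ (𝓞 F) ℚ F
  have hprime : ((below (𝓞 F) A).under ℤ).IsPrime := inferInstance
  have hmax : ((below (𝓞 F) A).under ℤ).IsMaximal := by
    have : Fact p.Prime := ⟨hp⟩
    rw [below_under_int (𝓞 F) hp hA]
    exact Int.ideal_span_isMaximal_of_prime p
  rw [← Ideal.ramificationIdx_eq_one_iff,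
    ← Ideal.ramificationIdxIn_eq_ramificationIdx ((below (𝓞 F) A).under ℤ) _ (F ≃ₐ[ℚ] F),
    ← Ideal.card_inertia_eq_ramificationIdxIn (G := F ≃ₐ[ℚ] F) ((below (𝓞 F) A).under ℤ)
      (below (𝓞 F) A), hcard]

/-- Version of `finrank_eq_one_of_inertia_le` for an arbitrary `ℚ`-algebra structure. -/
theorem finrank_eq_one_of_inertia_le' {L : Type*} [Field L] [CharZero L] [Algebra ℚ L]
    [IsGalois ℚ L] (F : Type*) [Field F] [inst : Algebra ℚ F] [FiniteDimensional ℚ F]
    [IsGalois ℚ F] [Algebra F L]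
    (h : ∀ ℓ : ℕ, ℓ.Prime → ∀ A : ValuationSubring L, A.LiesOverPrime ℓ →
      ∀ σ ∈ A.inertiaSubgroupIn ℚ, ∀ x : F, σ (algebraMap F L x) = algebraMap F L x) :
    Module.finrank ℚ F = 1 := by
  have : CharZero F := charZero_of_injective_algebraMap (algebraMap ℚ F).injective
  obtain rfl : inst = DivisionRing.toRatAlgebra := Subsingleton.elim _ _
  have : NumberField F := ⟨⟩
  exact finrank_eq_one_of_inertia_le (L := L) F h

section Subgroup

variable {L : Type*} [Field L] [CharZero L] [Algebra ℚ L] [IsGalois ℚ L]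

/-- Normal open subgroups of the Galois group containing all inertia groups are everything. -/
theorem subgroup_eq_top_aux (N : Subgroup (L ≃ₐ[ℚ] L)) (hN : N.Normal)
    (hopen : IsOpen (N : Set (L ≃ₐ[ℚ] L)))
    (h : ∀ ℓ : ℕ, ℓ.Prime → ∀ A : ValuationSubring L, A.LiesOverPrime ℓ →
      A.inertiaSubgroupIn ℚ ≤ N) : N = ⊤ := by
  have hclosed : IsClosed (N : Set (L ≃ₐ[ℚ] L)) := N.isClosed_of_isOpen hopen
  have hfix : (IntermediateField.fixedField N).fixingSubgroup = N :=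
    InfiniteGalois.fixingSubgroup_fixedField (⟨N, hclosed⟩ : ClosedSubgroup (L ≃ₐ[ℚ] L))
  let E := IntermediateField.fixedField N
  have hE1 : @FiniteDimensional ℚ E _ _ E.module' := by
    rw [← InfiniteGalois.isOpen_iff_finite]
    rw [show E.fixingSubgroup = N from hfix]
    exact hopen
  have hE2 : @IsGalois ℚ _ E _ E.algebra' := by
    rw [← InfiniteGalois.normal_iff_isGalois]
    rw [show E.fixingSubgroup = N from hfix]
    exact hN
  have hrank := @finrank_eq_one_of_inertia_le' L _ _ _ _ E _ E.algebra' hE1 hE2 _ (by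
    intro ℓ hℓ A hA σ hσ x
    have hx := x.2
    rw [IntermediateField.mem_fixedField_iff] at hx
    exact hx σ (h ℓ hℓ A hA hσ))
  have hbot : E = ⊥ := IntermediateField.finrank_eq_one_iff.1 hrank
  rw [← hfix]
  change E.fixingSubgroup = ⊤
  rw [hbot, IntermediateField.fixingSubgroup_bot]

/-- Open subgroups of the Galois group containing all inertia groups are everything. -/
theorem subgroup_eq_top (N : Subgroup (L ≃ₐ[ℚ] L)) (hopen : IsOpen (N : Set (L ≃ₐ[ℚ] L)))
    (h : ∀ ℓ : ℕ, ℓ.Prime → ∀ A : ValuationSubring L, A.LiesOverPrime ℓ →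
      A.inertiaSubgroupIn ℚ ≤ N) : N = ⊤ := by
  have hfi : N.FiniteIndex := by
    have : Finite ((L ≃ₐ[ℚ] L) ⧸ N) := N.quotient_finite_of_isOpen hopen
    exact Subgroup.finiteIndex_of_finite_quotient
  have hclosed : IsClosed (N : Set (L ≃ₐ[ℚ] L)) := N.isClosed_of_isOpen hopen
  have hcore : IsOpen (N.normalCore : Set (L ≃ₐ[ℚ] L)) := by
    have : N.normalCore.FiniteIndex := inferInstance
    have hc : IsClosed (N.normalCore : Set (L ≃ₐ[ℚ] L)) := by
      have : (N.normalCore : Set (L ≃ₐ[ℚ] L)) =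
          ⋂ g : (L ≃ₐ[ℚ] L), (fun x => g * x * g⁻¹) ⁻¹' (N : Set (L ≃ₐ[ℚ] L)) := by
        ext x
        simp only [Set.mem_iInter, Set.mem_preimage, SetLike.mem_coe]
        rfl
      rw [this]
      exact isClosed_iInter (fun g => hclosed.preimage (by fun_prop))
    exact Subgroup.isOpen_of_isClosed_of_finiteIndex _ hc
  have htop := subgroup_eq_top_aux N.normalCore inferInstance hcore (by
    intro ℓ hℓ A hA σ hσ g
    refine h ℓ hℓ (g • A) (liesOverPrime_smul hA g) ?_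
    rw [mem_inertiaSubgroupIn_smul_iff]
    have : g⁻¹ * (g * σ * g⁻¹) * g = σ := by group
    rwa [this])
  rw [← top_le_iff, ← htop]
  exact N.normalCore_le

/-- A finite extension inside `L` fixed by all inertia groups is `ℚ`. -/
theorem eq_bot_of_inertia_fixes (F : IntermediateField ℚ L)
    (hF : @FiniteDimensional ℚ F _ _ F.module')
    (h : ∀ ℓ : ℕ, ℓ.Prime → ∀ A : ValuationSubring L, A.LiesOverPrime ℓ →
      ∀ σ ∈ A.inertiaSubgroupIn ℚ, ∀ x ∈ F, σ x = x) : F = ⊥ := by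
  have h1 := subgroup_eq_top F.fixingSubgroup F.fixingSubgroup_isOpen (by
    intro ℓ hℓ A hA σ hσ
    rw [IntermediateField.mem_fixingSubgroup_iff]
    exact h ℓ hℓ A hA σ hσ)
  have h2 := InfiniteGalois.fixedField_fixingSubgroup F
  rw [h1] at h2
  rw [← h2]
  exact InfiniteGalois.fixedField_bot

/-- For normal open subgroups it suffices to consider one place above each prime. -/
theorem subgroup_eq_top_of_normal (N : Subgroup (L ≃ₐ[ℚ] L)) [N.Normal]
    (hopen : IsOpen (N : Set (L ≃ₐ[ℚ] L)))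
    (h : ∀ ℓ : ℕ, ℓ.Prime → ∃ A : ValuationSubring L, A.LiesOverPrime ℓ ∧
      A.inertiaSubgroupIn ℚ ≤ N) : N = ⊤ := by
  refine subgroup_eq_top N hopen (fun ℓ hℓ A hA => ?_)
  obtain ⟨A₀, hA₀, hN⟩ := h ℓ hℓ
  obtain ⟨g, rfl⟩ := exists_smul_eq hℓ hA₀ hA
  intro σ hσ
  rw [mem_inertiaSubgroupIn_smul_iff] at hσ
  have h1 := (inferInstance : N.Normal).conj_mem _ (hN hσ) g
  have h2 : g * (g⁻¹ * σ * g) * g⁻¹ = σ := by group
  rwa [h2] at h1

/-- A homomorphism of finite level which is unramified everywhere is trivial. -/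
theorem eq_one_of_unramified {M : Type*} [Group M] (ρ : (L ≃ₐ[ℚ] L) →* M)
    (hfin : ∃ E : IntermediateField ℚ L, FiniteDimensional ℚ E ∧ ∀ σ : L ≃ₐ[ℚ] L,
      (∀ x ∈ E, σ x = x) → ρ σ = 1)
    (h : ∀ ℓ : ℕ, ℓ.Prime → ∀ A : ValuationSubring L, A.LiesOverPrime ℓ →
      ∀ σ ∈ A.inertiaSubgroupIn ℚ, ρ σ = 1) (σ : L ≃ₐ[ℚ] L) : ρ σ = 1 := by
  obtain ⟨E, hE, hE'⟩ := hfin
  have hopen : IsOpen (ρ.ker : Set (L ≃ₐ[ℚ] L)) := by
    refine Subgroup.isOpen_mono (H₁ := E.fixingSubgroup) ?_ E.fixingSubgroup_isOpen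
    intro σ hσ
    rw [IntermediateField.mem_fixingSubgroup_iff] at hσ
    exact hE' σ hσ
  have := subgroup_eq_top ρ.ker hopen (fun ℓ hℓ A hA σ hσ => h ℓ hℓ A hA σ hσ)
  have h1 : σ ∈ ρ.ker := by rw [this]; trivial
  exact h1

end Subgroup

end Fermat.Agent.Frob
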