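import Mathlib
import Fermat.Agent.Frob.Places

/-!
# Convenience forms: lifting inertia/decomposition/Frobenius from a number field to `ℚ̄`
-/

open scoped Pointwise NumberField
open IsLocalRing

namespace Fermat.Agent.Frob

variable {E : Type*} [Field E] [CharZero E] [Algebra ℚ E] [IsGalois ℚ E]
variable (L : Type*) [Field L] [Algebra L E] [Algebra ℚ L] [Normal ℚ L]

/-- (N1) inertia lifts. -/
theorem exists_inertia_lift (P : Ideal (𝓞 L)) [P.IsMaximal] {ℓ : ℕ} (hℓ : ℓ.Prime)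
    (hP : (ℓ : 𝓞 L) ∈ P) (s : L ≃ₐ[ℚ] L) (hs : ∀ x : 𝓞 L, s • x - x ∈ P) :
    ∃ A : ValuationSubring E, A.LiesOverPrime ℓ ∧ below (𝓞 L) A = P ∧
      ∃ σ ∈ A.inertiaSubgroupIn ℚ, ∀ x : L, σ (algebraMap L E x) = algebraMap L E (s x) := by
  have : IsScalarTower ℚ L E := IsScalarTower.of_algebraMap_eq' (Subsingleton.elim _ _)
  have : Algebra.IsAlgebraic ℚ E := inferInstance
  obtain ⟨A, hA⟩ := exists_below_eq (L := E) P
  have hAl : A.LiesOverPrime ℓ := liesOverPrime_of_mem_below (R := 𝓞 L) (by rw [hA]; exact hP)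
  obtain ⟨σ, hσ, hσs⟩ := exists_mem_inertia_restrict L A hℓ hAl s (by
    rw [hA]; exact fun x => hs x)
  refine ⟨A, hAl, hA, σ, hσ, fun x => ?_⟩
  rw [← hσs, AlgEquiv.restrictNormal_commutes]

/-- (N2) decomposition lifts. -/
theorem exists_decomposition_lift (P : Ideal (𝓞 L)) [P.IsMaximal] {ℓ : ℕ} (hℓ : ℓ.Prime)
    (hP : (ℓ : 𝓞 L) ∈ P) (s : L ≃ₐ[ℚ] L) (hs : s • P = P) :
    ∃ A : ValuationSubring E, A.LiesOverPrime ℓ ∧ below (𝓞 L) A = P ∧
      ∃ σ ∈ A.decompositionSubgroup ℚ, ∀ x : L, σ (algebraMap L E x) = algebraMap L E (s x) := by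
  have : IsScalarTower ℚ L E := IsScalarTower.of_algebraMap_eq' (Subsingleton.elim _ _)
  have : Algebra.IsAlgebraic ℚ E := inferInstance
  obtain ⟨A, hA⟩ := exists_below_eq (L := E) P
  have hAl : A.LiesOverPrime ℓ := liesOverPrime_of_mem_below (R := 𝓞 L) (by rw [hA]; exact hP)
  obtain ⟨σ, hσ, hσs⟩ := exists_mem_decomposition_restrict L A hℓ hAl s (by rw [hA]; exact hs)
  refine ⟨A, hAl, hA, σ, hσ, fun x => ?_⟩
  rw [← hσs, AlgEquiv.restrictNormal_commutes]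

/-- (N2') decomposition lifts, weaker hypothesis for a number field. -/
theorem exists_decomposition_lift' [FiniteDimensional ℚ L] (P : Ideal (𝓞 L)) [P.IsMaximal]
    {ℓ : ℕ} (hℓ : ℓ.Prime) (hP : (ℓ : 𝓞 L) ∈ P) (s : L ≃ₐ[ℚ] L)
    (hs : ∀ x ∈ P, s • x ∈ P) :
    ∃ A : ValuationSubring E, A.LiesOverPrime ℓ ∧ below (𝓞 L) A = P ∧
      ∃ σ ∈ A.decompositionSubgroup ℚ, ∀ x : L, σ (algebraMap L E x) = algebraMap L E (s x) := by
  refine exists_decomposition_lift L P hℓ hP s ?_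
  -- `s • P ≤ P` and maximality
  have hle : s • P ≤ P := by
    intro x hx
    rw [Ideal.mem_pointwise_smul_iff_inv_smul_mem] at hx
    have := hs _ hx
    rwa [smul_inv_smul] at this
  have hmax : (s • P).IsMaximal := by
    have h := Ideal.map_isMaximal_of_equiv (MulSemiringAction.toRingEquiv (L ≃ₐ[ℚ] L) (𝓞 L) s)
      (p := P)
    exact h
  exact hmax.eq_of_le (Ideal.IsPrime.ne_top inferInstance) hle

/-- Frobenius lifts. -/
theorem exists_frobenius_lift (P : Ideal (𝓞 L)) [P.IsMaximal] {ℓ : ℕ} (hℓ : ℓ.Prime)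
    (hP : (ℓ : 𝓞 L) ∈ P) (s : L ≃ₐ[ℚ] L) (hs : IsArithFrobAt ℤ s P) :
    ∃ A : ValuationSubring E, A.LiesOverPrime ℓ ∧ below (𝓞 L) A = P ∧
      ∃ σ : E ≃ₐ[ℚ] E, A.IsFrobeniusAt σ ℓ ∧
        ∀ x : L, σ (algebraMap L E x) = algebraMap L E (s x) := by
  have : IsScalarTower ℚ L E := IsScalarTower.of_algebraMap_eq' (Subsingleton.elim _ _)
  obtain ⟨A, hA⟩ := exists_below_eq (L := E) P
  have hAl : A.LiesOverPrime ℓ := liesOverPrime_of_mem_below (R := 𝓞 L) (by rw [hA]; exact hP)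
  obtain ⟨σ, hσ, hσs⟩ := exists_isFrobeniusAt_restrict L A hℓ hAl s (by rw [hA]; exact hs)
  refine ⟨A, hAl, hA, σ, hσ, fun x => ?_⟩
  rw [← hσs, AlgEquiv.restrictNormal_commutes]

end Fermat.Agent.Frob
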